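import Fermat.Agent.NN.N2
import Fermat.Agent.H23.R.Kummer

/-!
# Comparison of the two cusps for non-Eisenstein classes (N3, P2)
-/

set_option autoImplicit false
set_option linter.style.haveILetI false
set_option linter.unusedSectionVars false
set_option maxSynthPendingDepth 3

noncomputable section

attribute [-instance] HahnSeries.instModule HahnSeries.instSMul HahnSeries.instDistribMulAction
  HahnSeries.instSMulZeroClass

attribute [local instance 10000] Fermat.Agent.H29.instLS Fermat.Agent.H29.instIF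
  Fermat.Agent.H29.instIF2

namespace Fermat.Agent.H02N

open ModularCurve HahnSeries Fermat.Agent.Igusa AlgebraicCurve Fermat.Agent.FF Fermat.Agent.H11Q
  Fermat.Agent.Q Module IntermediateField Fermat.Agent.H11N Fermat.Agent.NN Fermat.Agent.H26
  Fermat.Agent.H23.R

local notation "Qb" => AlgebraicClosure ℚ

section Lead

theorem lead_qExpand (N : ℕ) [NeZero N] (F : LaurentSeries Qb) :
    (qExpand Qb N F).leadingCoeff = F.leadingCoeff := by
  by_cases hF : F = 0
  · rw [hF, map_zero]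
  rw [HahnSeries.leadingCoeff_eq, HahnSeries.leadingCoeff_eq, Igusa.order_qExpand N hF,
    qExpand_coeff_mul]

theorem lead_twist (a : Qbˣ) (F : LaurentSeries Qb) :
    (twist a F).leadingCoeff = F.leadingCoeff * ((a ^ F.order : Qbˣ) : Qb) := by
  by_cases hF : F = 0
  · rw [hF, map_zero, HahnSeries.leadingCoeff_zero, zero_mul]
  rw [HahnSeries.leadingCoeff_eq, HahnSeries.leadingCoeff_eq, order_twist a hF, twist_coeff]

theorem lead_prod (s : Finset ℕ) (F : ℕ → LaurentSeries Qb) :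
    (∏ i ∈ s, F i).leadingCoeff = ∏ i ∈ s, (F i).leadingCoeff := by
  classical
  induction s using Finset.induction_on with
  | empty => rw [Finset.prod_empty, Finset.prod_empty]; exact HahnSeries.leadingCoeff_one
  | insert i s hi ih => rw [Finset.prod_insert hi, Finset.prod_insert hi,
      laurent_leadingCoeff_mul, ih]

/-- leading coefficients of norms -/
theorem lead_nmF {N l : ℕ} [NeZero N] [hl : Fact l.Prime] (hlN : ¬ l ∣ N) (hl2 : l ≠ 2)
    (f : modularFunctionFieldBar N) :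
    ((nmF l f : modularFunctionFieldBar N) : LaurentSeries Qb).leadingCoeff =
      (f : LaurentSeries Qb).leadingCoeff ^ (l + 1) := by
  haveI : NeZero (l : Qb) := ⟨Nat.cast_ne_zero.mpr hl.out.ne_zero⟩
  obtain ⟨ζ, hζ⟩ := HasEnoughRootsOfUnity.exists_primitiveRoot Qb l
  have hu : IsUnit ζ := hζ.isUnit hl.out.ne_zero
  obtain ⟨ζ', rfl⟩ := hu
  have hζ' : IsPrimitiveRoot ζ' l := IsPrimitiveRoot.coe_units_iff.mp hζ
  have h1 := congrArg HahnSeries.leadingCoeff (norm_qExpand Qb N l hlN hζ' f)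
  rw [lead_qExpand, laurent_leadingCoeff_mul, lead_qExpand, lead_qExpand, lead_prod,
    Finset.prod_congr rfl (fun b _ => lead_twist (ζ' ^ b) (f : LaurentSeries Qb)),
    Finset.prod_mul_distrib, Finset.prod_const, Finset.card_range] at h1
  have h3 : ∏ b ∈ Finset.range l, (((ζ' ^ b) ^ (f : LaurentSeries Qb).order : Qbˣ) : Qb) = 1 := by
    rw [← Units.coe_prod]
    have h4 : ∀ b ∈ Finset.range l, (ζ' ^ b) ^ (f : LaurentSeries Qb).order =
        (ζ' ^ (f : LaurentSeries Qb).order) ^ b := by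
      intro b _
      rw [← zpow_natCast, ← zpow_natCast, ← zpow_mul, ← zpow_mul, mul_comm]
    rw [Finset.prod_congr rfl h4, Finset.prod_pow_eq_pow_sum, Finset.sum_range_id,
      ← zpow_natCast, ← zpow_mul]
    have hodd : Odd l := hl.out.odd_of_ne_two hl2
    obtain ⟨k, hk⟩ := hodd
    have h5 : l * (l - 1) / 2 = l * k := by
      have h6 : l - 1 = 2 * k := by omega
      rw [h6, mul_left_comm, Nat.mul_div_cancel_left _ (by norm_num)]
    rw [h5, mul_comm, zpow_mul, zpow_natCast, pow_mul, hζ'.pow_eq_one, one_pow, one_zpow]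
    rfl
  rw [h3, mul_one] at h1
  refine h1.trans ?_
  rw [pow_succ, mul_comm]

end Lead

/-- normalised comparison of Kummer functions -/
theorem exists_norm {N m : ℕ} [NeZero N] (hm : m ≠ 0) {x : JZero N}
    {f₁ f₂ : modularFunctionFieldBar N} (h₁ : H05.Kum m x f₁) (h₂ : H05.Kum m x f₂)
    (l₁ : (f₁ : LaurentSeries Qb).leadingCoeff = 1)
    (l₂ : (f₂ : LaurentSeries Qb).leadingCoeff = 1) :
    ∃ g : modularFunctionFieldBar N, (g : LaurentSeries Qb).leadingCoeff = 1 ∧
      f₁ = f₂ * g ^ m := by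
  obtain ⟨v, -⟩ := H05.exists_place_infinity_bc Qb N
  obtain ⟨g, hg0, hg⟩ := h₁.exists_of_eq (H05.deg_eq_one_bc Qb N v) hm h₂
  have hg0' : (g : LaurentSeries Qb) ≠ 0 := fun h => hg0 (Subtype.ext h)
  have hl0 : (g : LaurentSeries Qb).leadingCoeff ≠ 0 := HahnSeries.leadingCoeff_ne_zero.2 hg0'
  have e1 : (f₁ : LaurentSeries Qb) = f₂ * (g : LaurentSeries Qb) ^ m := congrArg Subtype.val hg
  have e2 : (g : LaurentSeries Qb).leadingCoeff ^ m = 1 := by
    have e3 := congrArg HahnSeries.leadingCoeff e1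
    rw [laurent_leadingCoeff_mul, l₁, l₂, one_mul, leadingCoeff_pow] at e3
    exact e3.symm
  refine ⟨algebraMap Qb _ ((g : LaurentSeries Qb).leadingCoeff)⁻¹ * g, ?_, ?_⟩
  · change (algebraMap Qb (LaurentSeries Qb) _ * (g : LaurentSeries Qb)).leadingCoeff = 1
    rw [laurent_leadingCoeff_mul, algebraMap_laurentSeries_eq_single,
      HahnSeries.leadingCoeff_of_single, inv_mul_cancel₀ hl0]
  · have e4 : (algebraMap Qb (modularFunctionFieldBar N)
        ((g : LaurentSeries Qb).leadingCoeff)⁻¹ * g) ^ m = g ^ m := by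
      rw [mul_pow, ← map_pow, inv_pow, e2, inv_one, map_one, one_mul]
    rw [e4]
    exact hg

theorem ne_zero_of_lead {N : ℕ} {g : modularFunctionFieldBar N}
    (h : (g : LaurentSeries Qb).leadingCoeff = 1) : g ≠ 0 := by
  rintro rfl
  have h1 : (((0 : modularFunctionFieldBar N) : LaurentSeries Qb)).leadingCoeff = 0 :=
    HahnSeries.leadingCoeff_zero
  rw [h] at h1
  exact one_ne_zero h1

/-- `m`-th roots of a series differ by a constant -/
theorem exists_root_const {m : ℕ} (hm : m ≠ 0) {u v : LaurentSeries Qb} (hv : v ≠ 0)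
    (e : u ^ m = v ^ m) : ∃ δ : Qb, δ ^ m = 1 ∧ u = HahnSeries.C δ * v := by
  have hu : u ≠ 0 := by
    rintro rfl
    rw [zero_pow hm] at e
    exact pow_ne_zero m hv e.symm
  have hlu : u.leadingCoeff ≠ 0 := HahnSeries.leadingCoeff_ne_zero.2 hu
  have hlv : v.leadingCoeff ≠ 0 := HahnSeries.leadingCoeff_ne_zero.2 hv
  have h1 : u.leadingCoeff ^ m = v.leadingCoeff ^ m := by
    rw [← leadingCoeff_pow, ← leadingCoeff_pow, e]
  have hC : ∀ c : Qb, (HahnSeries.C c : LaurentSeries Qb).leadingCoeff = c := fun c =>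
    HahnSeries.leadingCoeff_of_single
  have h2 : HahnSeries.C (u.leadingCoeff)⁻¹ * u = HahnSeries.C (v.leadingCoeff)⁻¹ * v := by
    apply laurent_root_unique hm
    · rw [laurent_leadingCoeff_mul, hC, inv_mul_cancel₀ hlu]
    · rw [laurent_leadingCoeff_mul, hC, inv_mul_cancel₀ hlv]
    · rw [mul_pow, mul_pow, ← map_pow, ← map_pow, e, inv_pow, inv_pow, h1]
  refine ⟨u.leadingCoeff / v.leadingCoeff, ?_, ?_⟩
  · rw [div_pow, h1, div_self (pow_ne_zero _ hlv)]
  · have h3 : HahnSeries.C u.leadingCoeff * (HahnSeries.C (u.leadingCoeff)⁻¹ * u) =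
        HahnSeries.C u.leadingCoeff * (HahnSeries.C (v.leadingCoeff)⁻¹ * v) := by rw [h2]
    rw [← mul_assoc, ← mul_assoc, ← map_mul, ← map_mul, mul_inv_cancel₀ hlu, map_one,
      one_mul] at h3
    rw [div_eq_mul_inv]
    exact h3

theorem nmF_mul {N l : ℕ} [NeZero N] [NeZero l] (f g : modularFunctionFieldBar N) :
    nmF l (f * g) = nmF l f * nmF l g := nm_mul _ _ f g

theorem nmF_pow {N l : ℕ} [NeZero N] [NeZero l] (f : modularFunctionFieldBar N) (n : ℕ) :
    nmF l (f ^ n) = nmF l f ^ n := nm_pow _ _ f n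

theorem calc_aux {F : Type*} [Field F] {f g G sG ng : F} (hf : f ≠ 0) {a c p : ℕ}
    (h : (f ^ a * g ^ p) ^ c * sG ^ p = (f ^ c * G ^ p) ^ a * ng ^ p) :
    (g ^ c * sG) ^ p = (G ^ a * ng) ^ p := by
  have hfa : f ^ (a * c) ≠ 0 := pow_ne_zero _ hf
  apply mul_left_cancel₀ hfa
  calc f ^ (a * c) * (g ^ c * sG) ^ p
      = (f ^ a * g ^ p) ^ c * sG ^ p := by ring
    _ = (f ^ c * G ^ p) ^ a * ng ^ p := h
    _ = f ^ (a * c) * (G ^ a * ng) ^ p := by ring

variable {M p : ℕ} [NeZero M] [hp : Fact p.Prime]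

theorem kum_nat {N m : ℕ} {x : JZero N} {f : modularFunctionFieldBar N}
    [HasPrincipalDivisors Qb (modularFunctionFieldBar N)]
    (hf : H05.Kum m x f) (n : ℕ) : H05.Kum m (n • x) (f ^ n) := by
  induction n with
  | zero => rw [zero_smul, pow_zero]; exact H05.kum_zero_one m
  | succ n ih => rw [succ_nsmul, pow_succ]; exact ih.mul hf

/-- **comparison of the two cusps** -/
theorem exists_common (hpM : Nat.Coprime p M) (h2 : 2 ∣ M) {ζ : Qb} (hζ : IsPrimitiveRoot ζ p)
    {y : JZero (M * p)} {f : modularFunctionFieldBar (M * p)} (hf : H05.Kum p y f)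
    (hf1 : (f : LaurentSeries Qb).leadingCoeff = 1) {h0 h1 : LaurentSeries Qb}
    (e0 : h0 ^ p = f) (l0 : h0.leadingCoeff = 1)
    (e1 : h1 ^ p = (wBar M p hpM f : LaurentSeries Qb)) {l : ℕ} [hl' : Fact l.Prime]
    (hl : ¬ l ∣ M * p) {c : ℤ} (hc : heckeOperatorBar (M * p) ⟨l, hl'.out⟩ y = c • y)
    (hne : ¬ (p : ℤ) ∣ c - (l + 1)) {σ : Qb ≃ₐ[ℚ] Qb} {a : ℕ} (ha : σ ζ = ζ ^ a)
    (hσ : σ • y = a • y) :
    ∃ g : modularFunctionFieldBar (M * p), g ≠ 0 ∧
      coeffMap (σ : Qb →+* Qb) h0 = h0 ^ a * g ∧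
      coeffMap (σ : Qb →+* Qb) h1 = h1 ^ a * (wBar M p hpM g : LaurentSeries Qb) := by
  have hp0 : p ≠ 0 := hp.out.ne_zero
  have hl2 : l ≠ 2 := by
    rintro rfl
    exact hl (h2.mul_right p)
  have hlp : Nat.Coprime p l := by
    rw [Nat.coprime_primes hp.out hl'.out]
    rintro rfl
    exact hl (dvd_mul_left _ _)
  set F₀ := modularFunctionFieldFull (M * p) with hF₀
  set s := arithmeticGalois F₀ σ with hs
  have hcoe : ∀ z : modularFunctionFieldBar (M * p), ((s • z : modularFunctionFieldBar (M * p)) :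
      LaurentSeries Qb) = coeffMap (σ : Qb →+* Qb) (z : LaurentSeries Qb) := fun z => rfl
  have hw0 : ∀ z : modularFunctionFieldBar (M * p), z ≠ 0 →
      (wBar M p hpM z : LaurentSeries Qb) ≠ 0 := by
    intro z hz h
    apply hz
    have h3 : wBar M p hpM z = 0 := Subtype.ext h
    exact (map_eq_zero _).mp h3
  have hh1 : h1 ≠ 0 := by
    rintro rfl
    rw [zero_pow hp0] at e1
    exact hw0 f hf.ne_zero e1.symm
  -- the function `g`
  have hk1 : H05.Kum p (a • y) (s • f) := by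
    rw [← hσ]
    exact hf.smul s
  obtain ⟨g, hg1, hg⟩ := exists_norm hp0 hk1 (kum_nat hf a) (by
    rw [hcoe, leadingCoeff_coeffMap, hf1, map_one]) (by
    change ((f : LaurentSeries Qb) ^ a).leadingCoeff = 1
    rw [leadingCoeff_pow, hf1, one_pow])
  have hg0 : g ≠ 0 := ne_zero_of_lead hg1
  have hgL : coeffMap (σ : Qb →+* Qb) (f : LaurentSeries Qb) =
      (f : LaurentSeries Qb) ^ a * (g : LaurentSeries Qb) ^ p := congrArg Subtype.val hg
  have hwg : s • wBar M p hpM f = (wBar M p hpM f) ^ a * (wBar M p hpM g) ^ p := by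
    rw [← wBar_galois, hg, map_mul, map_pow, map_pow]
  have hwgL : coeffMap (σ : Qb →+* Qb) (wBar M p hpM f : LaurentSeries Qb) =
      (wBar M p hpM f : LaurentSeries Qb) ^ a * (wBar M p hpM g : LaurentSeries Qb) ^ p :=
    congrArg Subtype.val hwg
  -- first equation
  have E0 : coeffMap (σ : Qb →+* Qb) h0 = h0 ^ a * g := by
    apply laurent_root_unique hp0
    · rw [leadingCoeff_coeffMap, l0, map_one]
    · rw [laurent_leadingCoeff_mul, leadingCoeff_pow, l0, one_pow, hg1, one_mul]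
    · rw [← map_pow, e0, hgL, mul_pow, ← e0]
      ring
  -- the constant
  obtain ⟨δ, hδ, E1⟩ := exists_root_const hp0
    (u := coeffMap (σ : Qb →+* Qb) h1) (v := h1 ^ a * (wBar M p hpM g : LaurentSeries Qb))
    (mul_ne_zero (pow_ne_zero _ hh1) (hw0 g hg0)) (by
      rw [← map_pow, e1, hwgL, mul_pow, ← e1]
      ring)
  refine ⟨g, hg0, E0, ?_⟩
  suffices hδ1 : δ = 1 by rw [E1, hδ1, map_one, one_mul]
  -- the Hecke operator
  have hy : p • y = 0 := hf.nsmul_eq_zero
  obtain ⟨c', hc'⟩ : ∃ c' : ℕ, (p : ℤ) ∣ c - c' := by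
    refine ⟨(c % p).toNat, ?_⟩
    rw [Int.toNat_of_nonneg (Int.emod_nonneg _ (by exact_mod_cast hp0))]
    exact Int.dvd_self_sub_emod
  have hcy : heckeOperatorBar (M * p) ⟨l, hl'.out⟩ y = c' • y := by
    obtain ⟨k, hk⟩ := hc'
    have h3 : c = c' + k * p := by linarith
    rw [hc, h3, add_smul, mul_smul, natCast_zsmul, natCast_zsmul, hy, smul_zero, add_zero]
  have hkT := kum_hecke (l := l) hf
  rw [hcy] at hkT
  have hkT' : H05.Kum p (c' • y) (nmF l f) := hkT
  obtain ⟨G, hG1, hG⟩ := exists_norm hp0 hkT' (kum_nat hf c') (by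
    rw [lead_nmF hl hl2, hf1, one_pow]) (by
    change ((f : LaurentSeries Qb) ^ c').leadingCoeff = 1
    rw [leadingCoeff_pow, hf1, one_pow])
  have hG0 : G ≠ 0 := ne_zero_of_lead hG1
  -- the relation `g^c' σ(G) = G^a nmF g`
  have hrel : g ^ c' * (s • G) = G ^ a * nmF l g := by
    have h3 : s • nmF l f = (nmF l f) ^ a * (nmF l g) ^ p := by
      rw [← nmF_galois, hg, nmF_mul, nmF_pow, nmF_pow]
    rw [hG, smul_mul', smul_pow', smul_pow', hg] at h3
    apply Subtype.ext
    apply laurent_root_unique hp0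
    · change ((g : LaurentSeries Qb) ^ c' * coeffMap (σ : Qb →+* Qb) (G : LaurentSeries Qb)).leadingCoeff = 1
      rw [laurent_leadingCoeff_mul, leadingCoeff_pow, hg1, one_pow, one_mul,
        leadingCoeff_coeffMap, hG1, map_one]
    · change ((G : LaurentSeries Qb) ^ a * ((nmF l g : modularFunctionFieldBar (M * p)) :
        LaurentSeries Qb)).leadingCoeff = 1
      rw [laurent_leadingCoeff_mul, leadingCoeff_pow, hG1, one_pow, one_mul, lead_nmF hl hl2, hg1,
        one_pow]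
    · have h4 : (g ^ c' * (s • G)) ^ p = (G ^ a * nmF l g) ^ p := calc_aux hf.ne_zero h3
      exact congrArg Subtype.val h4
  -- the root `H1`
  set wf := wBar M p hpM f with hwf
  set H1 : LaurentSeries Qb := h1 ^ c' * (wBar M p hpM G : LaurentSeries Qb) with hH1
  have hH1p : H1 ^ p = ((nmF l wf : modularFunctionFieldBar (M * p)) : LaurentSeries Qb) := by
    rw [hwf, nmF_wBar hpM hlp, hG, map_mul, map_pow, map_pow, hH1, mul_pow]
    change _ = (wBar M p hpM f : LaurentSeries Qb) ^ c' * (wBar M p hpM G : LaurentSeries Qb) ^ p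
    rw [← e1]
    ring
  have hσH1 : coeffMap (σ : Qb →+* Qb) H1 = HahnSeries.C (δ ^ c') * H1 ^ a *
      ((nmF l (wBar M p hpM g) : modularFunctionFieldBar (M * p)) : LaurentSeries Qb) := by
    have h3 : (wBar M p hpM g) ^ c' * (s • wBar M p hpM G) =
        (wBar M p hpM G) ^ a * nmF l (wBar M p hpM g) := by
      have := congrArg (wBar M p hpM) hrel
      rw [map_mul, map_mul, map_pow, map_pow, wBar_galois] at this
      rw [this, nmF_wBar hpM hlp]
    have h4 : (wBar M p hpM g : LaurentSeries Qb) ^ c' *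
        coeffMap (σ : Qb →+* Qb) (wBar M p hpM G : LaurentSeries Qb) =
        (wBar M p hpM G : LaurentSeries Qb) ^ a *
          ((nmF l (wBar M p hpM g) : modularFunctionFieldBar (M * p)) : LaurentSeries Qb) :=
      congrArg Subtype.val h3
    rw [hH1, map_mul, map_pow, E1, mul_pow, mul_pow, map_pow, mul_assoc, mul_assoc, h4, mul_pow]
    ring
  clear_value H1
  -- leading coefficients
  have hC : ∀ c : Qb, (HahnSeries.C c : LaurentSeries Qb).leadingCoeff = c := fun c =>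
    HahnSeries.leadingCoeff_of_single
  set t1 := h1.leadingCoeff with ht1
  have ht10 : t1 ≠ 0 := HahnSeries.leadingCoeff_ne_zero.2 hh1
  set μ := (wBar M p hpM g : LaurentSeries Qb).leadingCoeff with hμ
  have hμ0 : μ ≠ 0 := HahnSeries.leadingCoeff_ne_zero.2 (hw0 g hg0)
  have hLE1 : σ t1 = δ * (t1 ^ a * μ) := by
    have := congrArg HahnSeries.leadingCoeff E1
    rw [leadingCoeff_coeffMap, laurent_leadingCoeff_mul, laurent_leadingCoeff_mul,
      leadingCoeff_pow, hC] at this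
    exact this
  set ν := H1.leadingCoeff with hν
  have hνp : (ν / t1 ^ (l + 1)) ^ p = 1 := by
    have h3 := congrArg HahnSeries.leadingCoeff hH1p
    rw [leadingCoeff_pow, lead_nmF hl hl2, hwf, ← e1, leadingCoeff_pow] at h3
    rw [div_pow, h3, ← pow_mul, ← pow_mul, mul_comm p (l + 1), div_self (pow_ne_zero _ ht10)]
  obtain ⟨b, -, hb⟩ := hζ.eq_pow_of_pow_eq_one hνp
  have hνe : ν = ζ ^ b * t1 ^ (l + 1) := by
    rw [hb, div_mul_cancel₀ _ (pow_ne_zero _ ht10)]
  have hLσ : σ ν = δ ^ c' * ν ^ a * μ ^ (l + 1) := by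
    have := congrArg HahnSeries.leadingCoeff hσH1
    rw [leadingCoeff_coeffMap, laurent_leadingCoeff_mul, laurent_leadingCoeff_mul,
      leadingCoeff_pow, hC, lead_nmF hl hl2] at this
    exact this
  have hζ0 : ζ ≠ 0 := hζ.ne_zero hp0
  have hkey : δ ^ (l + 1) = δ ^ c' := by
    have h3 : σ ν = (ζ ^ b) ^ a * (δ * (t1 ^ a * μ)) ^ (l + 1) := by
      rw [hνe, map_mul, map_pow, map_pow, ha, hLE1, ← pow_mul, ← pow_mul, mul_comm a b]
    rw [h3, hνe] at hLσ
    have h4 : ((ζ ^ b) ^ a * t1 ^ (a * (l + 1)) * μ ^ (l + 1)) * δ ^ (l + 1) =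
        ((ζ ^ b) ^ a * t1 ^ (a * (l + 1)) * μ ^ (l + 1)) * δ ^ c' := by
      calc ((ζ ^ b) ^ a * t1 ^ (a * (l + 1)) * μ ^ (l + 1)) * δ ^ (l + 1)
          = (ζ ^ b) ^ a * (δ * (t1 ^ a * μ)) ^ (l + 1) := by rw [pow_mul t1]; ring
        _ = δ ^ c' * (ζ ^ b * t1 ^ (l + 1)) ^ a * μ ^ (l + 1) := hLσ
        _ = _ := by rw [mul_pow, ← pow_mul t1, mul_comm (l + 1) a]; ring
    exact mul_left_cancel₀ (mul_ne_zero (mul_ne_zero (pow_ne_zero _ (pow_ne_zero _ hζ0))
      (pow_ne_zero _ ht10)) (pow_ne_zero _ hμ0)) h4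
  -- conclusion
  have hδ0 : δ ≠ 0 := by
    rintro rfl
    rw [zero_pow hp0] at hδ
    exact zero_ne_one hδ
  have hz : δ ^ ((c' : ℤ) - (l + 1)) = 1 := by
    have h3 : δ ^ ((c' : ℤ) - (l + 1)) = δ ^ c' / δ ^ (l + 1) := by
      rw [zpow_sub₀ hδ0]
      congr 1
      · exact zpow_natCast _ _
      · exact_mod_cast zpow_natCast δ (l + 1)
    rw [h3, hkey, div_self (pow_ne_zero _ hδ0)]
  have hcop : IsCoprime (p : ℤ) ((c' : ℤ) - (l + 1)) := by
    rw [Prime.coprime_iff_not_dvd (Nat.prime_iff_prime_int.mp hp.out)]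
    intro h3
    apply hne
    have h4 := dvd_add hc' h3
    have h5 : c - (c' : ℤ) + ((c' : ℤ) - (l + 1)) = c - (l + 1) := by ring
    rwa [h5] at h4
  obtain ⟨u, v, huv⟩ := hcop
  calc δ = δ ^ (1 : ℤ) := (zpow_one δ).symm
    _ = δ ^ (u * p + v * ((c' : ℤ) - (l + 1))) := by rw [huv]
    _ = (δ ^ p) ^ u * (δ ^ ((c' : ℤ) - (l + 1))) ^ v := by
      rw [zpow_add₀ hδ0, mul_comm u, mul_comm v, zpow_mul, zpow_mul, zpow_natCast]
    _ = 1 := by rw [hδ, hz, one_zpow, one_zpow, one_mul]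

end Fermat.Agent.H02N
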